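import Mathlib
import Fermat.Prelude.Def_AlgebraicCurve_DivisorClassGroup
import Fermat.Agent.S24.Residue
import Fermat.Agent.Lib.ConstExt.Dvr
import Fermat.Agent.Lib.ConstExt.Basic

set_option autoImplicit false
set_option linter.unusedSectionVars false

/-!
# Constant field extensions of function fields, part 2: extension of places

For a place `P` of `FK/K` (with residue field `K`) there is exactly one valuation subring `B` of
`FC` containing `C` with `φ⁻¹(B) = O_P`; it is a place of `FC/C`, unramified over `P`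
(`ord (φ f) = ord_P f`), with residue field `C`.
-/

noncomputable section

open AlgebraicCurve

namespace Fermat.Agent.ConstExt

universe uK uC uFK uFC

variable {K : Type uK} {C : Type uC} {FK : Type uFK} {FC : Type uFC}
  [Field K] [Field C] [Field FK] [Field FC] [Algebra K C] [Algebra K FK] [Algebra C FC]

/-! ### generalities on valuation subrings -/

section Val

variable {F : Type*} [Field F] (B : ValuationSubring F)

theorem val_eq_one_iff {x : F} (hx : x ≠ 0) : B.valuation x = 1 ↔ x ∈ B ∧ x⁻¹ ∈ B := by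
  have hv0 : B.valuation x ≠ 0 := (Valuation.ne_zero_iff _).mpr hx
  constructor
  · intro h
    refine ⟨(B.valuation_le_one_iff x).mp h.le, (B.valuation_le_one_iff _).mp ?_⟩
    rw [map_inv₀, h, inv_one]
  · rintro ⟨h1, h2⟩
    have h1' := (B.valuation_le_one_iff x).mpr h1
    have h2' := (B.valuation_le_one_iff _).mpr h2
    rw [map_inv₀] at h2'
    have h3 : 1 ≤ B.valuation x := by
      by_contra hcon
      rw [not_le] at hcon
      have : 1 < (B.valuation x)⁻¹ := (one_lt_inv₀ (zero_lt_iff.mpr hv0)).mpr hcon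
      exact absurd h2' (not_le.mpr this)
    exact le_antisymm h1' h3

theorem val_lt_one_iff {x : F} (hx : x ≠ 0) : B.valuation x < 1 ↔ x⁻¹ ∉ B := by
  have hv0 : B.valuation x ≠ 0 := (Valuation.ne_zero_iff _).mpr hx
  rw [← B.valuation_le_one_iff, map_inv₀, not_le]
  exact (one_lt_inv₀ (zero_lt_iff.mpr hv0)).symm

end Val

/-- all places of `FK/K` have residue field `K`. -/
def ResConst (K : Type*) (FK : Type*) [Field K] [Field FK] [Algebra K FK] : Prop :=
  ∀ (P : Place K FK) (f : FK), 0 ≤ P.ord f →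
    ∃ c : K, f = algebraMap K FK c ∨ 0 < P.ord (f - algebraMap K FK c)

theorem exists_unif (P : Place K FK) : ∃ t : FK, P.ord t = 1 := by
  obtain ⟨π, hπ⟩ := IsDiscreteValuationRing.exists_irreducible P.toValuationSubring
  exact ⟨π, P.ord_coe_irreducible hπ⟩

theorem ne_zero_of_ord_ne_zero (P : Place K FK) {f : FK} (hf : P.ord f ≠ 0) : f ≠ 0 := by
  rintro rfl
  exact hf P.ord_zero

/-- `B` is a valuation subring of `FC` over `C` lying over the place `P`. -/
structure IsExtOf (C : Type uC) [Field C] [Algebra C FC] (φ : FK →+* FC)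
    (B : ValuationSubring FC) (P : Place K FK) : Prop where
  const_mem : ∀ c : C, algebraMap C FC c ∈ B
  mem_iff : ∀ f : FK, φ f ∈ B ↔ f ∈ P.toValuationSubring

namespace IsExtOf

variable {φ : FK →+* FC} {B : ValuationSubring FC} {P : Place K FK}

theorem val_const_le (h : IsExtOf C φ B P) (c : C) : B.valuation (algebraMap C FC c) ≤ 1 :=
  (B.valuation_le_one_iff _).mpr (h.const_mem c)

theorem val_const (h : IsExtOf C φ B P) {c : C} (hc : c ≠ 0) :
    B.valuation (algebraMap C FC c) = 1 := by
  rw [val_eq_one_iff B ((map_ne_zero _).mpr hc)]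
  refine ⟨h.const_mem c, ?_⟩
  rw [← map_inv₀]
  exact h.const_mem _

theorem val_map_le_iff (h : IsExtOf C φ B P) (f : FK) : B.valuation (φ f) ≤ 1 ↔ 0 ≤ P.ord f := by
  rw [B.valuation_le_one_iff, h.mem_iff, Fermat.Agent.S24Res.mem_iff_ord_nonneg]

theorem val_map_lt_iff (h : IsExtOf C φ B P) {f : FK} (hf : f ≠ 0) :
    B.valuation (φ f) < 1 ↔ 0 < P.ord f := by
  rw [val_lt_one_iff B ((map_ne_zero φ).mpr hf), ← map_inv₀, h.mem_iff,
    Fermat.Agent.S24Res.mem_iff_ord_nonneg, P.ord_inv]
  omega

theorem val_map_eq_one (h : IsExtOf C φ B P) {f : FK} (hf : f ≠ 0) (h0 : P.ord f = 0) :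
    B.valuation (φ f) = 1 := by
  rw [val_eq_one_iff B ((map_ne_zero φ).mpr hf), ← map_inv₀, h.mem_iff, h.mem_iff,
    Fermat.Agent.S24Res.mem_iff_ord_nonneg, Fermat.Agent.S24Res.mem_iff_ord_nonneg, P.ord_inv]
  omega

theorem val_map (h : IsExtOf C φ B P) {t : FK} (ht : P.ord t = 1) {f : FK} (hf : f ≠ 0) :
    B.valuation (φ f) = B.valuation (φ t) ^ (P.ord f) := by
  have ht0 : t ≠ 0 := ne_zero_of_ord_ne_zero P (by rw [ht]; exact one_ne_zero)
  have htm : t ^ (P.ord f) ≠ 0 := zpow_ne_zero _ ht0
  have hu : P.ord (f * (t ^ (P.ord f))⁻¹) = 0 := by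
    rw [P.ord_mul hf (inv_ne_zero htm), P.ord_inv, P.ord_zpow, ht]
    ring
  have hu0 : f * (t ^ (P.ord f))⁻¹ ≠ 0 := mul_ne_zero hf (inv_ne_zero htm)
  have h1 := h.val_map_eq_one hu0 hu
  have hf' : f = (f * (t ^ (P.ord f))⁻¹) * t ^ (P.ord f) := by
    field_simp
  conv_lhs => rw [hf']
  rw [map_mul, map_mul, h1, one_mul, map_zpow₀, map_zpow₀]

/-- a family with entries of positive order (or zero) is mapped into the maximal ideal. -/
theorem val_Phi_lt_one (h : IsExtOf C φ B P) (g : Idx K C →₀ FK)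
    (hg : ∀ j, B.valuation (φ (g j)) < 1) : B.valuation (Phi K C φ g) < 1 := by
  rw [Phi_apply, Finsupp.sum]
  refine Valuation.map_sum_lt _ one_ne_zero fun j _ => ?_
  rw [map_mul]
  calc B.valuation (algebraMap C FC (bas K C j)) * B.valuation (φ (g j))
      ≤ 1 * B.valuation (φ (g j)) := mul_le_mul_left (h.val_const_le _) _
    _ = B.valuation (φ (g j)) := one_mul _
    _ < 1 := hg j

/-- the constant part of a family. -/
theorem Phi_mapRange_algebraMap {φ : FK →+* FC} (hφ : IsConstExt (K := K) (C := C) φ)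
    (a : Idx K C →₀ K) :
    Phi K C φ (Finsupp.mapRange (algebraMap K FK) (map_zero _) a)
      = algebraMap C FC (Finsupp.linearCombination K (bas K C) a) := by
  rw [Phi_apply, Finsupp.sum_mapRange_index (fun j => by rw [map_zero, mul_zero]),
    Finsupp.linearCombination_apply, map_finsuppSum]
  refine Finsupp.sum_congr fun j _ => ?_
  rw [hφ.comm, Algebra.smul_def, map_mul]
  ring

/-- (K1) a family with entries in `O_P` is congruent to a constant modulo the maximal ideal;
the constant is nonzero if some entry is a unit. -/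
theorem exists_const_val_sub_lt (hφ : IsConstExt (K := K) (C := C) φ) (hres : ResConst K FK)
    (h : IsExtOf C φ B P) (g : Idx K C →₀ FK) (hg : ∀ j, 0 ≤ P.ord (g j)) :
    ∃ c : C, B.valuation (Phi K C φ g - algebraMap C FC c) < 1 ∧
      ((∃ j, g j ≠ 0 ∧ P.ord (g j) = 0) → c ≠ 0) := by
  classical
  choose a ha using fun j => hres P (g j) (hg j)
  -- the finitely supported family of constants
  have hsupp : ∀ j, (if g j = 0 then (0 : K) else a j) ≠ 0 → j ∈ g.support := by
    intro j hj
    rw [Finsupp.mem_support_iff]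
    intro h0
    rw [if_pos h0] at hj
    exact hj rfl
  set A : Idx K C →₀ K := Finsupp.onFinset g.support (fun j => if g j = 0 then 0 else a j) hsupp
    with hA
  have hAj : ∀ j, A j = if g j = 0 then 0 else a j := fun j => rfl
  refine ⟨Finsupp.linearCombination K (bas K C) A, ?_, ?_⟩
  · rw [← Phi_mapRange_algebraMap hφ, ← map_sub]
    refine h.val_Phi_lt_one _ fun j => ?_
    rw [Finsupp.sub_apply, Finsupp.mapRange_apply, hAj]
    by_cases h0 : g j = 0
    · rw [if_pos h0, h0, map_zero, sub_zero, map_zero, map_zero]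
      exact zero_lt_one
    · rw [if_neg h0]
      rcases ha j with h1 | h1
      · rw [← h1, sub_self, map_zero, map_zero]
        exact zero_lt_one
      · have hne : g j - algebraMap K FK (a j) ≠ 0 := by
          intro h2
          rw [h2, P.ord_zero] at h1
          exact lt_irrefl _ h1
        exact (h.val_map_lt_iff hne).mpr h1
  · rintro ⟨j, hj0, hj⟩ hc
    have hA0 : A = 0 := by
      have hli := (bas K C).linearIndependent
      rw [linearIndependent_iff] at hli
      exact hli A hc
    have haj : a j = 0 := by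
      have := congrArg (fun l : Idx K C →₀ K => l j) hA0
      simp only [Finsupp.coe_zero, Pi.zero_apply] at this
      rw [hAj, if_neg hj0] at this
      exact this
    rcases ha j with h1 | h1
    · rw [haj, map_zero] at h1
      exact hj0 h1
    · rw [haj, map_zero, sub_zero, hj] at h1
      exact lt_irrefl _ h1

/-- (KEY) the valuation of `Φ g` is `v(φ t) ^ m`, `m` the minimum of the orders of the entries. -/
theorem val_Phi (hφ : IsConstExt (K := K) (C := C) φ) (hres : ResConst K FK)
    (h : IsExtOf C φ B P) {t : FK} (ht : P.ord t = 1) (g : Idx K C →₀ FK) (m : ℤ)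
    (hm : ∀ j ∈ g.support, m ≤ P.ord (g j)) (hj : ∃ j ∈ g.support, P.ord (g j) = m) :
    B.valuation (Phi K C φ g) = B.valuation (φ t) ^ m := by
  have ht0 : t ≠ 0 := ne_zero_of_ord_ne_zero P (by rw [ht]; exact one_ne_zero)
  have htm : t ^ (-m) ≠ 0 := zpow_ne_zero _ ht0
  have hv0 : B.valuation (φ t) ≠ 0 := (Valuation.ne_zero_iff _).mpr ((map_ne_zero φ).mpr ht0)
  -- the normalised family
  have hent : ∀ j, (t ^ (-m) • g) j = t ^ (-m) * g j := fun j => by
    rw [Finsupp.smul_apply, smul_eq_mul]
  have hord : ∀ j ∈ g.support, P.ord ((t ^ (-m) • g) j) = P.ord (g j) - m := by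
    intro j hjs
    have hgj : g j ≠ 0 := Finsupp.mem_support_iff.mp hjs
    rw [hent, P.ord_mul htm hgj, P.ord_zpow, ht]
    ring
  have h1 : ∀ j, 0 ≤ P.ord ((t ^ (-m) • g) j) := by
    intro j
    by_cases hjs : j ∈ g.support
    · rw [hord j hjs]
      have := hm j hjs
      omega
    · have : g j = 0 := Finsupp.notMem_support_iff.mp hjs
      rw [hent, this, mul_zero, P.ord_zero]
  obtain ⟨c, hc, hc0⟩ := exists_const_val_sub_lt hφ hres h _ h1
  have hcne : c ≠ 0 := by
    apply hc0
    obtain ⟨j, hjs, hjm⟩ := hj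
    refine ⟨j, ?_, ?_⟩
    · rw [hent]
      exact mul_ne_zero htm (Finsupp.mem_support_iff.mp hjs)
    · rw [hord j hjs, hjm, sub_self]
  have hval1 : B.valuation (Phi K C φ (t ^ (-m) • g)) = 1 := by
    have hsplit : Phi K C φ (t ^ (-m) • g)
        = algebraMap C FC c + (Phi K C φ (t ^ (-m) • g) - algebraMap C FC c) := by ring
    rw [hsplit, Valuation.map_add_eq_of_lt_left _ (by rw [h.val_const hcne]; exact hc),
      h.val_const hcne]
  rw [Phi_smul, map_mul, map_zpow₀, map_zpow₀, zpow_neg] at hval1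
  have hz : B.valuation (φ t) ^ m ≠ 0 := zpow_ne_zero _ hv0
  calc B.valuation (Phi K C φ g)
      = B.valuation (φ t) ^ m * ((B.valuation (φ t) ^ m)⁻¹ * B.valuation (Phi K C φ g)) := by
        rw [← mul_assoc, mul_inv_cancel₀ hz, one_mul]
    _ = B.valuation (φ t) ^ m := by rw [hval1, mul_one]

end IsExtOf

/-- minimum of the orders of the entries of a nonzero family. -/
theorem exists_minOrd (P : Place K FK) {g : Idx K C →₀ FK} (hg : g ≠ 0) :
    ∃ m : ℤ, (∀ j ∈ g.support, m ≤ P.ord (g j)) ∧ ∃ j ∈ g.support, P.ord (g j) = m := by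
  have hne : g.support.Nonempty := Finsupp.support_nonempty_iff.mpr hg
  obtain ⟨j, hj, hmin⟩ := Finset.exists_min_image g.support (fun j => P.ord (g j)) hne
  exact ⟨P.ord (g j), fun k hk => hmin k hk, j, hj, rfl⟩

/-- the order of an element of `FC` at any extension of `P` is determined by `P`. -/
theorem exists_ordExt {φ : FK →+* FC} (hφ : IsConstExt (K := K) (C := C) φ)
    (hres : ResConst K FK) (P : Place K FK) {t : FK} (ht : P.ord t = 1) {x : FC} (hx : x ≠ 0) :
    ∃ m : ℤ, ∀ B : ValuationSubring FC, IsExtOf C φ B P →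
      B.valuation x = B.valuation (φ t) ^ m := by
  obtain ⟨g, h, hh, hgh⟩ := exists_frac hφ x
  have hgne : Phi K C φ g ≠ 0 := by
    rw [← hgh]
    exact mul_ne_zero hx hh
  have hg0 : g ≠ 0 := by
    rintro rfl
    exact hgne (map_zero _)
  have hh0 : h ≠ 0 := by
    rintro rfl
    exact hh (map_zero _)
  obtain ⟨m, hm, hmj⟩ := exists_minOrd P hg0
  obtain ⟨n, hn, hnj⟩ := exists_minOrd P hh0
  refine ⟨m - n, fun B hB => ?_⟩
  have ht0 : t ≠ 0 := ne_zero_of_ord_ne_zero P (by rw [ht]; exact one_ne_zero)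
  have hv0 : B.valuation (φ t) ≠ 0 := (Valuation.ne_zero_iff _).mpr ((map_ne_zero φ).mpr ht0)
  have h1 := hB.val_Phi hφ hres ht g m hm hmj
  have h2 := hB.val_Phi hφ hres ht h n hn hnj
  have h3 : B.valuation x * B.valuation (Phi K C φ h) = B.valuation (Phi K C φ g) := by
    rw [← map_mul, hgh]
  rw [h1, h2] at h3
  rw [zpow_sub₀ hv0, eq_div_iff (zpow_ne_zero _ hv0)]
  exact h3

end Fermat.Agent.ConstExt
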