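import Mathlib
import Fermat.Prelude.Def_AlgebraicCurve_DivisorClassGroup
import Fermat.Agent.S24.Residue
import Fermat.Agent.Lib.ConstExt.Dvr
import Fermat.Agent.Lib.ConstExt.Basic
import Fermat.Agent.Lib.ConstExt.Ext

set_option autoImplicit false
set_option linter.unusedSectionVars false

/-!
# Constant field extensions of function fields, part 3: the place `extPlace P`

* `exists_isExtOf`: existence of a valuation subring of `FC` over `P` (Chevalley);
* `IsExtOf.unique`: uniqueness;
* `extPlace P : Place C FC`, `ord_extPlace : (extPlace P).ord (φ f) = P.ord f`;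
* `extPlace_injective`, `eq_extPlace_of_isExtOf`;
* `exists_eq_extPlace_or`: a place of `FC` is `extPlace P` or is trivial on `φ(FK)`.
-/

noncomputable section

open AlgebraicCurve

namespace Fermat.Agent.ConstExt

universe uK uC uFK uFC

variable {K : Type uK} {C : Type uC} {FK : Type uFK} {FC : Type uFC}
  [Field K] [Field C] [Field FK] [Field FC] [Algebra K C] [Algebra K FK] [Algebra C FC]
  {φ : FK →+* FC}

/-- existence of an extension of a place (Chevalley). -/
theorem exists_isExtOf (hφ : IsConstExt (K := K) (C := C) φ) (P : Place K FK) :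
    ∃ B : ValuationSubring FC, IsExtOf C φ B P := by
  obtain ⟨t, ht⟩ := exists_unif P
  have ht0 : t ≠ 0 := ne_zero_of_ord_ne_zero P (by rw [ht]; exact one_ne_zero)
  set O : Subring FK := P.toValuationSubring.toSubring with hO
  have hOK : ∀ a : K, algebraMap K FK a ∈ O := P.algebraMap_mem'
  have htO : t ∈ O := Fermat.Agent.S24Res.mem_of_ord_nonneg P (by rw [ht]; exact zero_le_one)
  set R : Subring FC := ringOf hφ O hOK with hR
  set τ : R := ⟨φ t, map_mem_ringOf hφ htO⟩ with hτ
  have hI : Ideal.span {τ} ≠ ⊤ := by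
    rw [Ne, Ideal.span_singleton_eq_top]
    intro hu
    obtain ⟨y, hy⟩ := hu.exists_right_inv
    obtain ⟨g, hg, hgy⟩ := y.2
    have h1 : φ t * Phi K C φ g = 1 := by
      rw [hgy]
      exact congrArg Subtype.val hy
    have h2 : Phi K C φ (t • g) = Phi K C φ (E 1 1) := by
      rw [Phi_smul, h1, Phi_E hφ, map_one, map_one, mul_one]
    have h3 : t • g = E (1 : C) (1 : FK) := Phi_injective hφ h2
    -- some coordinate of `1` is nonzero
    have h4 : (bas K C).repr (1 : C) ≠ 0 := by
      intro h0
      have := (bas K C).repr.map_eq_zero_iff.mp h0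
      exact one_ne_zero this
    obtain ⟨j, hj⟩ := Finsupp.ne_iff.mp h4
    rw [Finsupp.zero_apply] at hj
    have h5 := congrArg (fun l : Idx K C →₀ FK => l j) h3
    simp only [Finsupp.smul_apply, smul_eq_mul, E_apply] at h5
    rw [Algebra.smul_def, mul_one] at h5
    have hgj : g j ≠ 0 := by
      intro h0
      rw [h0, mul_zero] at h5
      exact hj ((map_eq_zero _).mp h5.symm)
    have h6 : P.ord (t * g j) = 0 := by
      rw [h5]
      exact Fermat.Agent.S24Res.ord_algebraMap P _
    rw [P.ord_mul ht0 hgj, ht] at h6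
    have h7 : 0 ≤ P.ord (g j) := Fermat.Agent.S24Res.ord_nonneg_of_mem P (hg j)
    omega
  obtain ⟨B, hRB, hIB⟩ := Ideal.image_subset_nonunits_valuationSubring _ hI
  have htB : B.valuation (φ t) < 1 := by
    have : φ t ∈ B.nonunits := hIB ⟨τ, Ideal.subset_span rfl, rfl⟩
    exact (ValuationSubring.mem_nonunits_iff (A := B)).mp this
  refine ⟨B, fun c => hRB (algebraMap_mem_ringOf hφ c), fun f => ⟨fun hf => ?_, fun hf => ?_⟩⟩
  · by_contra hfO
    have hford : P.ord f < 0 := Fermat.Agent.S24Res.ord_neg_of_not_mem P hfO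
    have hf0 : f ≠ 0 := ne_zero_of_ord_ne_zero P (ne_of_lt hford)
    -- `f⁻¹ = t * u` with `u ∈ O`
    set u : FK := f⁻¹ * t⁻¹ with hu
    have huord : 0 ≤ P.ord u := by
      rw [hu, P.ord_mul (inv_ne_zero hf0) (inv_ne_zero ht0), P.ord_inv, P.ord_inv, ht]
      omega
    have huB : B.valuation (φ u) ≤ 1 :=
      (B.valuation_le_one_iff _).mpr (hRB (map_mem_ringOf hφ
        (Fermat.Agent.S24Res.mem_of_ord_nonneg P huord)))
    have hfinv : f⁻¹ = t * u := by
      rw [hu]
      field_simp
    have h1 : B.valuation (φ f⁻¹) < 1 := by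
      rw [hfinv, map_mul, map_mul]
      calc B.valuation (φ t) * B.valuation (φ u) ≤ B.valuation (φ t) * 1 :=
            mul_le_mul_right huB _
        _ = B.valuation (φ t) := mul_one _
        _ < 1 := htB
    have h2 : (φ f⁻¹)⁻¹ ∉ B :=
      (val_lt_one_iff B ((map_ne_zero φ).mpr (inv_ne_zero hf0))).mp h1
    rw [map_inv₀, inv_inv] at h2
    exact h2 hf
  · exact hRB (map_mem_ringOf hφ hf)

namespace IsExtOf

variable {B B' : ValuationSubring FC} {P : Place K FK}

theorem isUnif (hφ : IsConstExt (K := K) (C := C) φ) (hres : ResConst K FK)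
    (h : IsExtOf C φ B P) {t : FK} (ht : P.ord t = 1) : IsUnif B (φ t) := by
  have ht0 : t ≠ 0 := ne_zero_of_ord_ne_zero P (by rw [ht]; exact one_ne_zero)
  refine ⟨(map_ne_zero φ).mpr ht0, (h.val_map_lt_iff ht0).mpr (by rw [ht]; exact zero_lt_one),
    fun x hx => ?_⟩
  obtain ⟨m, hm⟩ := exists_ordExt hφ hres P ht hx
  exact ⟨m, hm B h⟩

/-- uniqueness of the extension of a place. -/
theorem unique (hφ : IsConstExt (K := K) (C := C) φ) (hres : ResConst K FK)
    (h : IsExtOf C φ B P) (h' : IsExtOf C φ B' P) : B = B' := by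
  obtain ⟨t, ht⟩ := exists_unif P
  have hu := h.isUnif hφ hres ht
  have hu' := h'.isUnif hφ hres ht
  ext x
  rcases eq_or_ne x 0 with rfl | hx
  · exact ⟨fun _ => B'.zero_mem, fun _ => B.zero_mem⟩
  obtain ⟨m, hm⟩ := exists_ordExt hφ hres P ht hx
  rw [← B.valuation_le_one_iff, ← B'.valuation_le_one_iff, hm B h, hm B' h',
    zpow_le_one_iff_nonneg hu.val_ne_zero hu.lt_one,
    zpow_le_one_iff_nonneg hu'.val_ne_zero hu'.lt_one]

end IsExtOf

/-- a chosen uniformizer. -/
def unif (P : Place K FK) : FK := (exists_unif P).choose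

theorem ord_unif (P : Place K FK) : P.ord (unif P) = 1 := (exists_unif P).choose_spec

/-- the valuation subring of the extended place. -/
def extRing (hφ : IsConstExt (K := K) (C := C) φ) (P : Place K FK) : ValuationSubring FC :=
  (exists_isExtOf hφ P).choose

theorem extRing_isExtOf (hφ : IsConstExt (K := K) (C := C) φ) (P : Place K FK) :
    IsExtOf C φ (extRing hφ P) P := (exists_isExtOf hφ P).choose_spec

/-- the extension of a place `P` of `FK/K` to `FC/C`. -/
def extPlace (hφ : IsConstExt (K := K) (C := C) φ) (hres : ResConst K FK) (P : Place K FK) :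
    Place C FC :=
  ((extRing_isExtOf hφ P).isUnif hφ hres (ord_unif P)).place (extRing_isExtOf hφ P).const_mem

theorem extPlace_toValuationSubring (hφ : IsConstExt (K := K) (C := C) φ)
    (hres : ResConst K FK) (P : Place K FK) :
    (extPlace hφ hres P).toValuationSubring = extRing hφ P := rfl

theorem extPlace_isExtOf (hφ : IsConstExt (K := K) (C := C) φ) (hres : ResConst K FK)
    (P : Place K FK) : IsExtOf C φ (extPlace hφ hres P).toValuationSubring P :=
  extRing_isExtOf hφ P

/-- `extPlace P` is unramified over `P`. -/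
theorem ord_extPlace (hφ : IsConstExt (K := K) (C := C) φ) (hres : ResConst K FK)
    (P : Place K FK) (f : FK) : (extPlace hφ hres P).ord (φ f) = P.ord f := by
  rcases eq_or_ne f 0 with rfl | hf
  · rw [map_zero, Place.ord_zero, Place.ord_zero]
  · exact IsUnif.ord_place _ _ ((map_ne_zero φ).mpr hf)
      ((extRing_isExtOf hφ P).val_map (ord_unif P) hf)

theorem eq_extPlace_of_isExtOf (hφ : IsConstExt (K := K) (C := C) φ) (hres : ResConst K FK)
    {P : Place K FK} {Q : Place C FC} (h : IsExtOf C φ Q.toValuationSubring P) :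
    Q = extPlace hφ hres P :=
  Place.ext (h.unique hφ hres (extPlace_isExtOf hφ hres P))

theorem extPlace_injective (hφ : IsConstExt (K := K) (C := C) φ) (hres : ResConst K FK) :
    Function.Injective (extPlace hφ hres : Place K FK → Place C FC) := by
  intro P P' h
  apply Place.ext
  ext f
  rw [← (extPlace_isExtOf hφ hres P).mem_iff, ← (extPlace_isExtOf hφ hres P').mem_iff, h]

/-- a ring automorphism of `FC` preserving `C` and fixing `φ(FK)` preserves `extPlace P`. -/
theorem map_mem_extPlace_iff (hφ : IsConstExt (K := K) (C := C) φ) (hres : ResConst K FK)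
    (P : Place K FK) (τ : FC ≃+* FC)
    (hτC : ∀ c : C, ∃ c' : C, τ (algebraMap C FC c) = algebraMap C FC c')
    (hτφ : ∀ f : FK, τ (φ f) = φ f) (x : FC) :
    τ x ∈ (extPlace hφ hres P).toValuationSubring ↔ x ∈ (extPlace hφ hres P).toValuationSubring := by
  set B := (extPlace hφ hres P).toValuationSubring with hB
  have h1 : IsExtOf C φ (B.comap (τ : FC →+* FC)) P := by
    refine ⟨fun c => ?_, fun f => ?_⟩
    · rw [ValuationSubring.mem_comap]
      obtain ⟨c', hc'⟩ := hτC c
      show τ (algebraMap C FC c) ∈ B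
      rw [hc']
      exact (extPlace_isExtOf hφ hres P).const_mem c'
    · rw [ValuationSubring.mem_comap]
      show τ (φ f) ∈ B ↔ _
      rw [hτφ]
      exact (extPlace_isExtOf hφ hres P).mem_iff f
  have h2 := h1.unique hφ hres (extPlace_isExtOf hφ hres P)
  rw [← hB] at h2
  conv_rhs => rw [← h2]
  rw [ValuationSubring.mem_comap]
  rfl

end Fermat.Agent.ConstExt
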