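import Mathlib
import Fermat.Prelude.Def_AlgebraicCurve_DivisorClassGroup
import Fermat.Agent.S24.Residue
import Fermat.Agent.Lib.ConstExt.Dvr
import Fermat.Agent.Lib.ConstExt.Basic
import Fermat.Agent.Lib.ConstExt.Ext
import Fermat.Agent.Lib.ConstExt.Place

set_option autoImplicit false
set_option linter.unusedSectionVars false

/-!
# Constant field extensions of function fields, part 4: restriction of places, residue fields

* `exists_extPlace_eq_or`: a place of `FC/C` is `extPlace P` for a (unique) place `P` of `FK/K`,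
  or it is trivial on `φ(FK)`;
* `eq_extPlace_of_ord`: a place `Q` with `Q.ord (φ f) = P.ord f` for all `f` is `extPlace P`;
* `extPlace_resConst`, `deg_extPlace`: the residue field of `extPlace P` is `C`.
-/

noncomputable section

open AlgebraicCurve

namespace Fermat.Agent.ConstExt

universe uK uC uFK uFC

variable {K : Type uK} {C : Type uC} {FK : Type uFK} {FC : Type uFC}
  [Field K] [Field C] [Field FK] [Field FC] [Algebra K C] [Algebra K FK] [Algebra C FC]
  {φ : FK →+* FC}

theorem ord_map_mul_zpow (Q : Place C FC) {x t : FK} (hx : x ≠ 0) (ht : t ≠ 0) (q : ℤ) :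
    Q.ord (φ (x * t ^ q)) = Q.ord (φ x) + q * Q.ord (φ t) := by
  rw [map_mul, map_zpow₀, Q.ord_mul ((map_ne_zero φ).mpr hx)
    (zpow_ne_zero _ ((map_ne_zero φ).mpr ht)), Q.ord_zpow]

/-- the restriction of a place of `FC` to `FK`, when it is not trivial. -/
theorem exists_extPlace_eq_or (hφ : IsConstExt (K := K) (C := C) φ) (hres : ResConst K FK)
    (Q : Place C FC) :
    (∃ P : Place K FK, extPlace hφ hres P = Q) ∨ (∀ f : FK, f ≠ 0 → Q.ord (φ f) = 0) := by
  classical
  by_cases h0 : ∀ f : FK, f ≠ 0 → Q.ord (φ f) = 0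
  · exact Or.inr h0
  left
  simp only [not_forall] at h0
  obtain ⟨f0, hf0, hf0ord⟩ := h0
  -- positive values
  have hS : ∃ n : ℕ, 0 < n ∧ ∃ f : FK, f ≠ 0 ∧ Q.ord (φ f) = n := by
    rcases lt_or_gt_of_ne hf0ord with hneg | hpos
    · refine ⟨(-Q.ord (φ f0)).toNat, by omega, f0⁻¹, inv_ne_zero hf0, ?_⟩
      rw [map_inv₀, Q.ord_inv]
      omega
    · exact ⟨(Q.ord (φ f0)).toNat, by omega, f0, hf0, by omega⟩
  set e := Nat.find hS with he
  obtain ⟨he0, t, ht0, hte⟩ := Nat.find_spec hS
  rw [← he] at he0 hte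
  have hmin : ∀ n : ℕ, 0 < n → (∃ f : FK, f ≠ 0 ∧ Q.ord (φ f) = n) → e ≤ n :=
    fun n hn hf => Nat.find_min' hS ⟨hn, hf⟩
  set A : ValuationSubring FK := Q.toValuationSubring.comap φ with hA
  have hmemA : ∀ f : FK, f ∈ A ↔ 0 ≤ Q.ord (φ f) := by
    intro f
    rw [hA, ValuationSubring.mem_comap, Fermat.Agent.S24Res.mem_iff_ord_nonneg]
  have hunif : IsUnif A t := by
    refine ⟨ht0, ?_, fun x hx => ?_⟩
    · rw [val_lt_one_iff A ht0, hmemA, map_inv₀, Q.ord_inv, hte]
      omega
    · -- division with remainder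
      set n := Q.ord (φ x) with hn
      have hepos : (0 : ℤ) < e := by exact_mod_cast he0
      set q := n / e with hq
      set r := n % e with hr
      have hr0 : 0 ≤ r := Int.emod_nonneg _ (ne_of_gt hepos)
      have hre : r < e := Int.emod_lt_of_pos _ hepos
      have hnqr : n = q * e + r := by
        rw [hq, hr, mul_comm]
        exact (Int.mul_ediv_add_emod n e).symm
      set y := x * t ^ (-q) with hy
      have hy0 : y ≠ 0 := mul_ne_zero hx (zpow_ne_zero _ ht0)
      have hyord : Q.ord (φ y) = r := by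
        rw [hy, ord_map_mul_zpow Q hx ht0, hte, ← hn, hnqr]
        ring
      have hr' : r = 0 := by
        by_contra hrne
        have hrpos : 0 < r := lt_of_le_of_ne hr0 (Ne.symm hrne)
        have := hmin r.toNat (by omega) ⟨y, hy0, by rw [hyord]; omega⟩
        omega
      rw [hr'] at hyord
      have hyval : A.valuation y = 1 := by
        rw [val_eq_one_iff A hy0, hmemA, hmemA, map_inv₀, Q.ord_inv, hyord]
        exact ⟨le_refl _, by omega⟩
      refine ⟨q, ?_⟩
      have hxy : x = y * t ^ q := by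
        rw [hy, mul_assoc, ← zpow_add₀ ht0]
        simp
      conv_lhs => rw [hxy]
      rw [map_mul, hyval, one_mul, map_zpow₀]
  have hK : ∀ a : K, algebraMap K FK a ∈ A := by
    intro a
    rw [hA, ValuationSubring.mem_comap]
    show φ (algebraMap K FK a) ∈ Q.toValuationSubring
    rw [hφ.comm]
    exact Q.algebraMap_mem' _
  refine ⟨hunif.place hK, ?_⟩
  symm
  apply eq_extPlace_of_isExtOf hφ hres
  exact ⟨Q.algebraMap_mem', fun f => Iff.rfl⟩

/-- a place of `FC` inducing `P.ord` on `φ(FK)` is `extPlace P`. -/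
theorem eq_extPlace_of_ord (hφ : IsConstExt (K := K) (C := C) φ) (hres : ResConst K FK)
    (P : Place K FK) (Q : Place C FC) (h : ∀ f : FK, Q.ord (φ f) = P.ord f) :
    Q = extPlace hφ hres P := by
  apply eq_extPlace_of_isExtOf hφ hres
  refine ⟨Q.algebraMap_mem', fun f => ?_⟩
  rw [Fermat.Agent.S24Res.mem_iff_ord_nonneg, Fermat.Agent.S24Res.mem_iff_ord_nonneg, h]

/-- the places `extPlace P` are not trivial on `φ(FK)`. -/
theorem extPlace_ne_of_trivial (hφ : IsConstExt (K := K) (C := C) φ) (hres : ResConst K FK)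
    {Q : Place C FC} (hQ : ∀ f : FK, f ≠ 0 → Q.ord (φ f) = 0) (P : Place K FK) :
    extPlace hφ hres P ≠ Q := by
  rintro rfl
  have h1 := ord_extPlace hφ hres P (unif P)
  rw [ord_unif] at h1
  have h2 := hQ (unif P) (ne_zero_of_ord_ne_zero P (by rw [ord_unif]; exact one_ne_zero))
  omega

/-! ### residue fields -/

/-- in terms of valuations: an element of a place is congruent to a constant. -/
theorem val_sub_const_lt_iff (Q : Place C FC) (x : FC) (c : C) :
    Q.toValuationSubring.valuation (x - algebraMap C FC c) < 1 ↔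
      (x = algebraMap C FC c ∨ 0 < Q.ord (x - algebraMap C FC c)) := by
  rcases eq_or_ne (x - algebraMap C FC c) 0 with h0 | h0
  · rw [h0, map_zero]
    exact ⟨fun _ => Or.inl (sub_eq_zero.mp h0), fun _ => zero_lt_one⟩
  · rw [val_lt_one_iff _ h0, Fermat.Agent.S24Res.mem_iff_ord_nonneg, Q.ord_inv]
    constructor
    · intro h
      right
      omega
    · rintro (h | h)
      · exact absurd (sub_eq_zero.mpr h) h0
      · omega

/-- the residue field of `extPlace P` is `C`. -/
theorem extPlace_resConst (hφ : IsConstExt (K := K) (C := C) φ) (hres : ResConst K FK)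
    (P : Place K FK) (x : FC) (hx : 0 ≤ (extPlace hφ hres P).ord x) :
    ∃ c : C, x = algebraMap C FC c ∨ 0 < (extPlace hφ hres P).ord (x - algebraMap C FC c) := by
  set Q := extPlace hφ hres P with hQ
  set B := Q.toValuationSubring with hB
  have hext : IsExtOf C φ B P := extPlace_isExtOf hφ hres P
  rcases eq_or_ne x 0 with rfl | hx0
  · exact ⟨0, Or.inl (map_zero _).symm⟩
  set t := unif P with ht
  have htord : P.ord t = 1 := ord_unif P
  have ht0 : t ≠ 0 := ne_zero_of_ord_ne_zero P (by rw [htord]; exact one_ne_zero)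
  have hu : IsUnif B (φ t) := hext.isUnif hφ hres htord
  obtain ⟨g, h, hh, hgh⟩ := exists_frac hφ x
  have hgne : Phi K C φ g ≠ 0 := by
    rw [← hgh]
    exact mul_ne_zero hx0 hh
  have hg0 : g ≠ 0 := by
    rintro rfl
    exact hgne (map_zero _)
  have hh0 : h ≠ 0 := by
    rintro rfl
    exact hh (map_zero _)
  obtain ⟨m, hm, hmj⟩ := exists_minOrd P hg0
  obtain ⟨n, hn, hnj⟩ := exists_minOrd P hh0
  have h1 := hext.val_Phi hφ hres htord g m hm hmj
  have h2 := hext.val_Phi hφ hres htord h n hn hnj
  have hxB : B.valuation x ≤ 1 :=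
    (B.valuation_le_one_iff x).mpr (Fermat.Agent.S24Res.mem_of_ord_nonneg Q hx)
  have hmn : n ≤ m := by
    have h3 : B.valuation x * B.valuation (Phi K C φ h) = B.valuation (Phi K C φ g) := by
      rw [← map_mul, hgh]
    rw [h1, h2] at h3
    have h4 : B.valuation x = B.valuation (φ t) ^ (m - n) := by
      rw [zpow_sub₀ hu.val_ne_zero, eq_div_iff (zpow_ne_zero _ hu.val_ne_zero)]
      exact h3
    rw [h4, zpow_le_one_iff_nonneg hu.val_ne_zero hu.lt_one] at hxB
    omega
  -- normalise
  have htn : t ^ (-n) ≠ 0 := zpow_ne_zero _ ht0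
  have hent : ∀ (k : Idx K C →₀ FK) (j : Idx K C), (t ^ (-n) • k) j = t ^ (-n) * k j :=
    fun k j => by rw [Finsupp.smul_apply, smul_eq_mul]
  have hordk : ∀ (k : Idx K C →₀ FK) (j : Idx K C), k j ≠ 0 →
      P.ord ((t ^ (-n) • k) j) = P.ord (k j) - n := by
    intro k j hkj
    rw [hent, P.ord_mul htn hkj, P.ord_zpow, htord]
    ring
  have hnonneg : ∀ (k : Idx K C →₀ FK), (∀ j ∈ k.support, n ≤ P.ord (k j)) →
      ∀ j, 0 ≤ P.ord ((t ^ (-n) • k) j) := by
    intro k hk j
    by_cases hjs : j ∈ k.support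
    · rw [hordk k j (Finsupp.mem_support_iff.mp hjs)]
      have := hk j hjs
      omega
    · have : k j = 0 := Finsupp.notMem_support_iff.mp hjs
      rw [hent, this, mul_zero, P.ord_zero]
  obtain ⟨cg, hcg, -⟩ := hext.exists_const_val_sub_lt hφ hres _
    (hnonneg g fun j hj => le_trans hmn (hm j hj))
  obtain ⟨ch, hch, hch0⟩ := hext.exists_const_val_sub_lt hφ hres _ (hnonneg h hn)
  have hchne : ch ≠ 0 := by
    apply hch0
    obtain ⟨j, hjs, hjn⟩ := hnj
    have hhj : h j ≠ 0 := Finsupp.mem_support_iff.mp hjs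
    refine ⟨j, ?_, ?_⟩
    · rw [hent]
      exact mul_ne_zero htn hhj
    · rw [hordk h j hhj, hjn, sub_self]
  set G := Phi K C φ (t ^ (-n) • g) with hG
  set H := Phi K C φ (t ^ (-n) • h) with hH
  have hxGH : x * H = G := by
    rw [hG, hH, Phi_smul, Phi_smul, ← hgh]
    ring
  have hHval : B.valuation H = 1 := by
    have hsplit : H = algebraMap C FC ch + (H - algebraMap C FC ch) := by ring
    rw [hsplit, Valuation.map_add_eq_of_lt_left _ (by rw [hext.val_const hchne]; exact hch),
      hext.val_const hchne]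
  have hH0 : H ≠ 0 := by
    intro h0
    rw [h0, map_zero] at hHval
    exact zero_ne_one hHval
  refine ⟨cg / ch, (val_sub_const_lt_iff Q x _).mp ?_⟩
  have hkey : x - algebraMap C FC (cg / ch)
      = ((G - algebraMap C FC cg) - algebraMap C FC (cg / ch) * (H - algebraMap C FC ch)) * H⁻¹ := by
    have hc : algebraMap C FC (cg / ch) * algebraMap C FC ch = algebraMap C FC cg := by
      rw [← map_mul, div_mul_cancel₀ _ hchne]
    have hx' : x = G * H⁻¹ := by
      rw [← hxGH, mul_assoc, mul_inv_cancel₀ hH0, mul_one]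
    rw [hx']
    field_simp
    linear_combination (-1 : FC) * hc
  rw [hkey, map_mul, map_inv₀, hHval, inv_one, mul_one]
  refine lt_of_le_of_lt (Valuation.map_sub _ _ _) (max_lt hcg ?_)
  rw [map_mul]
  calc B.valuation (algebraMap C FC (cg / ch)) * B.valuation (H - algebraMap C FC ch)
      ≤ 1 * B.valuation (H - algebraMap C FC ch) := mul_le_mul_left (hext.val_const_le _) _
    _ = B.valuation (H - algebraMap C FC ch) := one_mul _
    _ < 1 := hch

/-- a place whose residue field is the field of constants has degree one. -/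
theorem deg_eq_one_of_res {k F : Type*} [Field k] [Field F] [Algebra k F] (Q : Place k F)
    (h : ∀ x : F, 0 ≤ Q.ord x →
      ∃ c : k, x = algebraMap k F c ∨ 0 < Q.ord (x - algebraMap k F c)) : Q.deg = 1 := by
  have hsurj : Function.Surjective (algebraMap k Q.ResidueField) := by
    intro z
    obtain ⟨⟨x, hxmem⟩, rfl⟩ := IsLocalRing.residue_surjective z
    obtain ⟨c, hc⟩ := h x (Fermat.Agent.S24Res.ord_nonneg_of_mem Q hxmem)
    refine ⟨c, ?_⟩
    rw [IsScalarTower.algebraMap_apply k Q.toValuationSubring Q.ResidueField,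
      IsLocalRing.ResidueField.algebraMap_eq]
    symm
    rw [← sub_eq_zero, ← map_sub, IsLocalRing.residue_eq_zero_iff]
    set a : Q.toValuationSubring := ⟨x, hxmem⟩ - algebraMap k Q.toValuationSubring c with ha
    have hcoe : (a : F) = x - algebraMap k F c := rfl
    rcases hc with hc | hc
    · have ha0 : a = 0 := by
        apply Subtype.ext
        rw [hcoe, hc, sub_self]
        rfl
      rw [ha0]
      exact zero_mem _
    · have ha0 : a ≠ 0 := by
        intro h0
        have : (a : F) = 0 := by rw [h0]; rfl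
        rw [hcoe] at this
        rw [this, Q.ord_zero] at hc
        exact lt_irrefl _ hc
      rw [Fermat.Agent.S24Res.mem_maximalIdeal_iff_ord_pos Q ha0, hcoe]
      exact hc
  have e : k ≃ₗ[k] Q.ResidueField :=
    LinearEquiv.ofBijective (Algebra.linearMap k Q.ResidueField)
      ⟨(algebraMap k Q.ResidueField).injective, hsurj⟩
  rw [Place.deg, ← e.finrank_eq, Module.finrank_self]

theorem deg_of_resConst (hres : ResConst K FK) (P : Place K FK) : P.deg = 1 :=
  deg_eq_one_of_res P (hres P)

theorem deg_extPlace (hφ : IsConstExt (K := K) (C := C) φ) (hres : ResConst K FK)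
    (P : Place K FK) : (extPlace hφ hres P).deg = 1 :=
  deg_eq_one_of_res _ (extPlace_resConst hφ hres P)

end Fermat.Agent.ConstExt
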