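import Mathlib
import Fermat.Prelude.Def_AlgebraicCurve_DivisorClassGroup
import Fermat.Agent.S24.Residue
import Fermat.Agent.Lib.ConstExt.Dvr
import Fermat.Agent.Lib.ConstExt.Basic
import Fermat.Agent.Lib.ConstExt.Ext
import Fermat.Agent.Lib.ConstExt.Place
import Fermat.Agent.Lib.ConstExt.Restrict

set_option autoImplicit false
set_option linter.unusedSectionVars false

/-!
# Constant field extensions of function fields, part 5: divisors and `Pic0`

* `extDiv : Divisor K FK →+ Divisor C FC`, the base change of divisors;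
* `extDiv_principal`: `extDiv (div f) = div (φ f)`;
* `degree_extDiv`;
* `bc : Pic0 K FK →+ Pic0 C FC`, `bc_mk`.
-/

noncomputable section

open AlgebraicCurve

namespace Fermat.Agent.ConstExt

universe uK uC uFK uFC

variable {K : Type uK} {C : Type uC} {FK : Type uFK} {FC : Type uFC}
  [Field K] [Field C] [Field FK] [Field FC] [Algebra K C] [Algebra K FK] [Algebra C FC]
  {φ : FK →+* FC}

/-- base change of divisors. -/
def extDiv (hφ : IsConstExt (K := K) (C := C) φ) (hres : ResConst K FK) :
    Divisor K FK →+ Divisor C FC :=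
  Finsupp.mapDomain.addMonoidHom (extPlace hφ hres)

variable (hφ : IsConstExt (K := K) (C := C) φ) (hres : ResConst K FK)

theorem extDiv_def (D : Divisor K FK) :
    extDiv hφ hres D = Finsupp.mapDomain (extPlace hφ hres) D := rfl

@[simp]
theorem extDiv_single (P : Place K FK) (n : ℤ) :
    extDiv hφ hres (Finsupp.single P n) = Finsupp.single (extPlace hφ hres P) n := by
  rw [extDiv_def, Finsupp.mapDomain_single]

@[simp]
theorem extDiv_apply_extPlace (D : Divisor K FK) (P : Place K FK) :
    extDiv hφ hres D (extPlace hφ hres P) = D P := by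
  rw [extDiv_def]
  exact Finsupp.mapDomain_apply (extPlace_injective hφ hres) D P

theorem extDiv_apply_of_trivial (D : Divisor K FK) {Q : Place C FC}
    (hQ : ∀ f : FK, f ≠ 0 → Q.ord (φ f) = 0) : extDiv hφ hres D Q = 0 := by
  rw [extDiv_def]
  apply Finsupp.mapDomain_of_notMem_range
  rintro ⟨P, hP⟩
  exact extPlace_ne_of_trivial hφ hres hQ P hP

/-- `extDiv (div f) = div (φ f)`. -/
theorem extDiv_principal {D : Divisor K FK} {f : FK} (hf : f ≠ 0)
    (hD : ∀ P : Place K FK, D P = P.ord f) (Q : Place C FC) :
    extDiv hφ hres D Q = Q.ord (φ f) := by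
  rcases exists_extPlace_eq_or hφ hres Q with ⟨P, rfl⟩ | hQ
  · rw [extDiv_apply_extPlace, ord_extPlace, hD]
  · rw [extDiv_apply_of_trivial hφ hres D hQ, hQ f hf]

theorem degree_extDiv (D : Divisor K FK) :
    Divisor.degree (extDiv hφ hres D) = Divisor.degree D := by
  induction D using Finsupp.induction_linear with
  | zero => simp only [map_zero]
  | add D E hD hE => rw [map_add, map_add, hD, hE, map_add]
  | single P n =>
      rw [extDiv_single, Divisor.degree_single, Divisor.degree_single, deg_extPlace,
        deg_of_resConst hres]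

theorem extDiv_mem_degZero {D : Divisor K FK} (hD : D ∈ Divisor.degZero (K := K) (F := FK)) :
    extDiv hφ hres D ∈ Divisor.degZero (K := C) (F := FC) := by
  rw [Divisor.mem_degZero, degree_extDiv]
  exact hD

theorem extDiv_mem_principal {D : Divisor K FK}
    (hD : D ∈ Divisor.principal (K := K) (F := FK)) :
    extDiv hφ hres D ∈ Divisor.principal (K := C) (F := FC) := by
  obtain ⟨f, hf, hDf⟩ := hD
  exact ⟨φ f, (map_ne_zero φ).mpr hf, fun Q => extDiv_principal hφ hres hf hDf Q⟩

theorem extDiv_injective : Function.Injective (extDiv hφ hres) :=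
  Finsupp.mapDomain_injective (extPlace_injective hφ hres)

/-- base change on divisors of degree zero. -/
def extDivZero : Divisor.degZero (K := K) (F := FK) →+ Divisor.degZero (K := C) (F := FC) :=
  ((extDiv hφ hres).comp (Divisor.degZero (K := K) (F := FK)).subtype).codRestrict _
    (fun D => extDiv_mem_degZero hφ hres D.2)

@[simp]
theorem coe_extDivZero (D : Divisor.degZero (K := K) (F := FK)) :
    (extDivZero hφ hres D : Divisor C FC) = extDiv hφ hres (D : Divisor K FK) := rfl

/-- base change of divisor classes of degree zero. -/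
def bc : Pic0 K FK →+ Pic0 C FC :=
  QuotientAddGroup.map _ _ (extDivZero hφ hres) (by
    rintro ⟨D, hD0⟩ hD
    simp only [AddSubgroup.mem_addSubgroupOf, AddSubgroup.mem_comap] at hD ⊢
    exact extDiv_mem_principal hφ hres hD)

theorem bc_mk (D : Divisor.degZero (K := K) (F := FK)) :
    bc hφ hres (Pic0.mk D) = Pic0.mk (extDivZero hφ hres D) := rfl

/-- the kernel of `bc`, in terms of divisors. -/
theorem bc_mk_eq_zero_iff (D : Divisor.degZero (K := K) (F := FK)) :
    bc hφ hres (Pic0.mk D) = 0 ↔
      extDiv hφ hres (D : Divisor K FK) ∈ Divisor.principal (K := C) (F := FC) := by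
  rw [bc_mk, Pic0.mk, QuotientAddGroup.eq_zero_iff, AddSubgroup.mem_addSubgroupOf]
  rfl

theorem pic0_mk_eq_zero_iff {k F : Type*} [Field k] [Field F] [Algebra k F]
    (D : Divisor.degZero (K := k) (F := F)) :
    Pic0.mk D = 0 ↔ (D : Divisor k F) ∈ Divisor.principal (K := k) (F := F) := by
  rw [Pic0.mk, QuotientAddGroup.eq_zero_iff, AddSubgroup.mem_addSubgroupOf]

end Fermat.Agent.ConstExt
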