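import Mathlib
import Fermat.Prelude.Def_AlgebraicCurve_DivisorClassGroup
import Fermat.Prelude.Def_ModularCurve_LaurentCoeff
import Fermat.Agent.Lib.RR.Basic
import Fermat.Agent.F3.I2.Descent.Theta
import Fermat.Agent.Lib.ConstExt.Div

set_option autoImplicit false

/-!
# Constant field extensions: instances of the hypotheses

* `resConst_of_isRRField`: the hypothesis `ResConst K F` from `IsRRField K F`;
* `isConstExt_descTheta`: the coefficientwise embedding
  `descTheta K K' F₀ : laurentBaseChange K F₀ →+* laurentBaseChange K' F₀` is a constant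
  field extension in the sense of `IsConstExt`.
-/

noncomputable section

open AlgebraicCurve ModularCurve

namespace Fermat.Agent.ConstExt

theorem resConst_of_isRRField {K F : Type*} [Field K] [Field F] [Algebra K F]
    (h : Fermat.Agent.RR.IsRRField K F) : ResConst K F :=
  fun P _ hf => Fermat.Agent.RR.exists_const_sub h P hf

theorem resConst_of_deg_one {K F : Type*} [Field K] [Field F] [Algebra K F]
    (h : ∀ v : Place K F, v.deg = 1) : ResConst K F := by
  intro v f hf
  have hsurj : Function.Surjective (algebraMap K v.ResidueField) := by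
    intro z
    have h1 : (1 : v.ResidueField) ≠ 0 := one_ne_zero
    obtain ⟨c, hc⟩ := (finrank_eq_one_iff_of_nonzero' (1 : v.ResidueField) h1).mp (h v) z
    exact ⟨c, by rw [Algebra.algebraMap_eq_smul_one, hc]⟩
  have hmem : f ∈ v.toValuationSubring := Fermat.Agent.S24Res.mem_of_ord_nonneg v hf
  obtain ⟨c, hc⟩ := hsurj (IsLocalRing.residue v.toValuationSubring ⟨f, hmem⟩)
  refine ⟨c, ?_⟩
  set a : v.toValuationSubring := ⟨f, hmem⟩ - algebraMap K v.toValuationSubring c with ha
  have hamem : a ∈ IsLocalRing.maximalIdeal v.toValuationSubring := by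
    rw [← IsLocalRing.residue_eq_zero_iff, ha, map_sub, sub_eq_zero, ← hc]
    rfl
  have hcoe : (a : F) = f - algebraMap K F c := rfl
  rcases eq_or_ne a 0 with h0 | h0
  · left
    have : (a : F) = 0 := by rw [h0]; rfl
    rw [hcoe, sub_eq_zero] at this
    exact this
  · right
    rw [← hcoe]
    exact (Fermat.Agent.S24Res.mem_maximalIdeal_iff_ord_pos v h0).mp hamem

universe u v

theorem isConstExt_descTheta (K : Type u) (K' : Type v) [Field K] [Field K'] [Algebra ℚ K]
    [Algebra ℚ K'] [Algebra K K'] (F₀ : IntermediateField ℚ (LaurentSeries ℚ)) :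
    IsConstExt (K := K) (C := K') (Fermat.Agent.F3I2.descTheta K K' F₀) where
  comm := Fermat.Agent.F3I2.descTheta_algebraMap K K' F₀
  ld := fun _ b hb g h => Fermat.Agent.F3I2.descTheta_linearDisjoint K K' F₀ b hb g h
  gen := Fermat.Agent.F3I2.descTheta_adjoin_eq_top K K' F₀

end Fermat.Agent.ConstExt
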