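import Mathlib
import Fermat.Prelude.Def_AlgebraicCurve_DivisorClassGroup
import Fermat.Prelude.Def_ModularCurve_LaurentCoeff
import Fermat.Agent.Lib.RR.Basic
import Fermat.Agent.F3.I2.Descent.Theta
import Fermat.Agent.F3.I2.Descent.Places
import Fermat.Agent.Lib.ConstExt.Inst

set_option autoImplicit false

/-!
# The place extension data `DescPlaces K K' F₀` (A3e, half 1)

`descPlaces K K' F₀ hres : Fermat.Agent.F3I2.DescPlaces K K' F₀` for fields `K → K'` and the
coefficientwise embedding `descTheta K K' F₀ : F_K → F_K'`, as soon as all places of `F_K/K`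
have residue field `K` (`ResConst`, e.g. from `IsRRField K F_K`).
-/

noncomputable section

open AlgebraicCurve ModularCurve

namespace Fermat.Agent.ConstExt

universe u v

variable (K : Type u) (K' : Type v) [Field K] [Field K'] [Algebra ℚ K] [Algebra ℚ K']
  [Algebra K K'] (F₀ : IntermediateField ℚ (LaurentSeries ℚ))

/-- the place extension data along `θ : F_K → F_K'`. -/
def descPlaces (hres : ResConst K (laurentBaseChange K F₀)) :
    Fermat.Agent.F3I2.DescPlaces K K' F₀ where
  ext := extPlace (isConstExt_descTheta K K' F₀) hres
  ext_injective := extPlace_injective (isConstExt_descTheta K K' F₀) hres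
  ord_ext := fun v f => ord_extPlace (isConstExt_descTheta K K' F₀) hres v f
  dich := fun w => by
    rcases exists_extPlace_eq_or (isConstExt_descTheta K K' F₀) hres w with h | h
    · exact Or.inl h
    · refine Or.inr fun f => ?_
      rcases eq_or_ne f 0 with rfl | hf
      · rw [map_zero, Place.ord_zero]
      · exact h f hf

@[simp]
theorem descPlaces_ext (hres : ResConst K (laurentBaseChange K F₀))
    (v : Place K (laurentBaseChange K F₀)) :
    (descPlaces K K' F₀ hres).ext v = extPlace (isConstExt_descTheta K K' F₀) hres v := rfl

/-- the place extension data, from the Riemann-Roch hypotheses on `F_K`. -/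
def descPlacesOfRR (hK : Fermat.Agent.RR.IsRRField K (laurentBaseChange K F₀)) :
    Fermat.Agent.F3I2.DescPlaces K K' F₀ :=
  descPlaces K K' F₀ (resConst_of_isRRField hK)

end Fermat.Agent.ConstExt
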